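import Fermat.Agent.S25.Assembly.Main
import Fermat.Agent.S25.H971.AlgDef
import Fermat.Agent.S25.H146.SheafSep
import Fermat.Agent.S25.H507.Chart
import Fermat.Agent.S25.H130.Rep
import Fermat.Agent.S25.H551.RigLiftBridge
import Fermat.Agent.S25.H566.DictUnit
import Fermat.Agent.S25.H687.DDFinal
import Fermat.Agent.S25.H265.GDCCurve
import Fermat.Agent.S25.H265.GDCDeg
import Fermat.Agent.S25.H265.GDCBaseChange
import Fermat.Agent.S25.H550.DegConst
import Fermat.Agent.S25.H986.DictIsoMpr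
import Fermat.Agent.S25.H505.DictBC
import Fermat.Agent.S25.H505.DictSections
import Fermat.Agent.S25.H506.AlgVal
import Fermat.Agent.S25.H567.AbelFamily
import Fermat.Agent.S25.H747.AlgAbelTop
import Fermat.Agent.S25.H266.AbLocRig
import Fermat.Agent.S25.H146.SheafGlue
import Fermat.Agent.S25.H927.AbAlgAA2
import Fermat.Agent.S25.H11.ACTop
import Fermat.Agent.S25.H11.ACStage4
import Fermat.Agent.S25.H791.ACLeaf01
import Fermat.Agent.S25.H431.ACPointUnique
import Fermat.Agent.S25.H490.ACPtIso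
import Fermat.Agent.S25.H791.ACPointBC
import Fermat.Agent.S25.H505.DictGlue
import Fermat.Agent.S25.H206.SurjFinal
import Fermat.Agent.S25.H611.ACStage3
import Fermat.Agent.S25.H446.ACStage2
import Fermat.Agent.S25.H911.ACCover

/-!
# Row S25, final assembly

`result_final` : the frozen statement S25 (existence of the Jacobian of a proper smooth integral
curve with a rational point over an algebraically closed field), assembled from the blocks
CHART, DICT, ALG-DEF, ALG-VAL, ALGCHARTS, SHEAF, ABEL proved in `Fermat/Agent/S25/H*/`.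
-/

set_option autoImplicit false
universe u
open CategoryTheory CategoryTheory.Limits AlgebraicGeometry AlgebraicGeometry.RelPicard
  NeronModelInfra GoodReductionJacobian

namespace Fermat.Agent.S25.Assembly

/-- **S25**: the degree-zero relative Picard functor of a proper smooth integral curve with a
rational point over an algebraically closed field is representable by a smooth, proper,
geometrically connected scheme. -/
theorem result_final (k : Type u) [Field k] [IsAlgClosed k] {C : Scheme.{u}}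
    (c : C ⟶ Spec (CommRingCat.of k)) [IsProper c] [SmoothOfRelativeDimension 1 c] [IsIntegral C]
    (ε : SchemeHomOver (𝟙 (Spec (CommRingCat.of k))) c) :
    ∃ D : RelativePic0Designation k c,
      Nonempty (RepresentsRelSubPic c ε (algEquivZeroCut c ε) D) ∧
        Smooth D.toBase ∧ IsProper D.toBase ∧ GeometricallyConnected D.toBase := by
  obtain ⟨Ch⟩ := H507.stmt_chart k c ε
  have hSheafGlue : Stmt.SheafGlue c ε := H146.sheafGlue k c ε
  have hPtIso : H11.Leaf.PointIso k Ch.B₀ Ch.B₁ Ch.B₀₁ :=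
    fun _ _ _ hC i _ _ _ _ _ _ h h' => H490.pointCond_iso hC i h h'
  have hAlgCharts : Stmt.AlgCharts k Ch.B₀ Ch.B₁ Ch.B₀₁ :=
    H11.algCharts_of_leaves₈ H791.leaf_stage0 H791.leaf_stage1 H446.leaf_stage2
      (H611.stage3_of_stage2 H446.leaf_stage2) H791.leaf_pointBC H431.leaf_pointUnique hPtIso
      (H911.cover_of_stage2 H446.leaf_stage2)
  have hAA2 : H747.StmtAA2 k Ch.B₀ Ch.B₁ Ch.B₀₁ := H927.stmtAA2
  have hAA6 : H747.StmtAA6 k Ch.B₀ Ch.B₁ Ch.B₀₁ := H206.stmtAA6 k Ch.B₀ Ch.B₁ Ch.B₀₁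
  have hGlue : Stmt.DictGlue Ch := H505.dictGlue Ch
  have hSec : Stmt.DictSections Ch := H505.dictSections Ch
  have hUnit : H687.DictUnit Ch := fun A _ _ => H566.dictUnit Ch A
  have hIso : Stmt.DictIso Ch := H986.dictIso Ch
  have hBC : Stmt.DictBC Ch := H505.dictBC Ch
  have hEx : Stmt.AlgBCExists Ch := H265.algBCExists Ch
  have hId : H687.BCId k Ch.B₀ Ch.B₁ Ch.B₀₁ := fun A _ _ G => H265.curveGD_isBC_id G
  have hComp : H687.BCComp k Ch.B₀ Ch.B₁ Ch.B₀₁ :=
    fun A A' A'' _ _ _ _ _ _ φ ψ G G' G'' h h' => H265.curveGD_isBC_comp h h'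
  have hDegIso : H687.DegIso k Ch.B₀ Ch.B₁ Ch.B₀₁ :=
    fun K _ _ G G' h => H265.degree_eq_of_isIso h
  have hDegConst : H687.DegConst k Ch.B₀ Ch.B₁ Ch.B₀₁ := H550.degConst
  have hAA4 : H747.StmtAA4 k Ch.B₀ Ch.B₁ Ch.B₀₁ := fun x y e hC g A _ _ P 𝔭 h𝔭 =>
    H266.abelDatum_locRig_of_isBC e g A P (fun A' _ _ ψ => hAA2 x y e hC g A A' ψ P) 𝔭 h𝔭
  obtain ⟨𝔉⟩ := H747.algAbel_of_leaves hAA2 hAA4 hAA6 Ch.x Ch.y Ch.e Ch.isCurveChart
  have hAbelAlg : H687.AbelAlg Ch :=
    H567.abelAlg Ch 𝔉 hSheafGlue (H146.sheafSep k c ε) hGlue hIso hBC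
      (fun A _ _ => H566.dictUnit Ch A)
  have hDeg : Stmt.DictDeg Ch :=
    H687.dictDeg_final Ch hSec hIso hBC hEx hUnit hId hComp hDegIso hDegConst hAbelAlg
  have hAbel : Stmt.Abel c ε :=
    H687.abel_final Ch hSec hIso hBC hEx hUnit hId hComp hDegIso hDegConst hAbelAlg
  exact result_of_blocks Ch hSec hGlue hIso hBC hDeg hEx
    hAlgCharts (H971.algDef k Ch.B₀ Ch.B₁ Ch.B₀₁) (H551.rigLift205 Ch.B₀ Ch.B₁ Ch.B₀₁ Ch.e)
    H506.algVal hSheafGlue (H146.sheafSep k c ε) hAbel H130.rep_of_charts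

end Fermat.Agent.S25.Assembly
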