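import Fermat.Agent.S25.Assembly.Top
import Fermat.Agent.S25.Bridge.Val
import Fermat.Agent.S25.H205.BridgeDef
import Fermat.Agent.S25.H625.ChartsOfAlg
import Fermat.Agent.S25.H805.LocalP

/-!
# Row S25, master assembly: the frozen statement from the L3 blocks

`result_of_blocks` lists exactly what is still needed.
-/

set_option autoImplicit false
universe u
open CategoryTheory CategoryTheory.Limits AlgebraicGeometry AlgebraicGeometry.RelPicard
  NeronModelInfra GoodReductionJacobian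

namespace Fermat.Agent.S25.Assembly

variable {k : Type u} [Field k] {C : Scheme.{u}} {c : C ⟶ Spec (CommRingCat.of k)}
  {ε : SchemeHomOver (𝟙 (Spec (CommRingCat.of k))) c}

/-- S25 from the L3 blocks. -/
theorem result_of_blocks (Ch : ChartOf c ε)
    (hSec : Stmt.DictSections Ch) (hGlue : Stmt.DictGlue Ch) (hIso : Stmt.DictIso Ch)
    (hBC : Stmt.DictBC Ch) (hDeg : Stmt.DictDeg Ch) (hEx : Stmt.AlgBCExists Ch)
    (hAlgCharts : Stmt.AlgCharts k Ch.B₀ Ch.B₁ Ch.B₀₁)
    (hAlgDef : Stmt.AlgDef k Ch.B₀ Ch.B₁ Ch.B₀₁)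
    (hRig : H205.RigLift Ch.B₀ Ch.B₁ Ch.B₀₁ Ch.e)
    (hAlgVal : Stmt.AlgVal k Ch.B₀ Ch.B₁ Ch.B₀₁)
    (hSheafGlue : Stmt.SheafGlue c ε) (hSheafSep : Stmt.SheafSep c ε)
    (hAbel : Stmt.Abel c ε)
    (hRepOfCharts : Stmt.Charts c ε → Stmt.SheafGlue c ε → Stmt.SheafSep c ε →
      Stmt.LocalP c ε → Stmt.Rep c ε) :
    ∃ D : RelativePic0Designation k c,
      Nonempty (RepresentsRelSubPic c ε (algEquivZeroCut c ε) D) ∧
        Smooth D.toBase ∧ IsProper D.toBase ∧ GeometricallyConnected D.toBase :=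
  result_of_pillars c ε
    (hRepOfCharts (H625.charts_of_alg Ch hSec hGlue hIso hBC hDeg hEx hAlgCharts)
      hSheafGlue hSheafSep (H805.localP c ε))
    (H205.def_of_alg Ch hSec hGlue hIso hBC hAlgDef hRig)
    (Bridge.val_of_alg Ch hSec hIso hBC hDeg hEx hAlgVal)
    hAbel

end Fermat.Agent.S25.Assembly
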