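import Fermat.Agent.S25.Defs
import Fermat.Agent.S25.H805.SmoothOfRep
import Fermat.Agent.S25.H927.Proper
import Fermat.Agent.S25.H927.GeomConn

/-!
# Row S25, assembly: the frozen statement from the four pillars `Rep`, `Def`, `Val`, `Abel`
-/

set_option autoImplicit false
universe u
open CategoryTheory CategoryTheory.Limits AlgebraicGeometry AlgebraicGeometry.RelPicard
  NeronModelInfra GoodReductionJacobian

namespace Fermat.Agent.S25.Assembly

variable {k : Type u} [Field k] {C : Scheme.{u}} (c : C ⟶ Spec (CommRingCat.of k))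
  (ε : SchemeHomOver (𝟙 (Spec (CommRingCat.of k))) c)

/-- S25 from the four pillars. -/
theorem result_of_pillars (hRep : Stmt.Rep c ε) (hDef : Stmt.Def c ε) (hVal : Stmt.Val c ε)
    (hAbel : Stmt.Abel c ε) :
    ∃ D : RelativePic0Designation k c,
      Nonempty (RepresentsRelSubPic c ε (algEquivZeroCut c ε) D) ∧
        Smooth D.toBase ∧ IsProper D.toBase ∧ GeometricallyConnected D.toBase :=
  result_of_stmts c ε hRep (H805.smoothOfRep_of_def hDef)
    (H927.properOfRep_of_val_abel hVal hAbel) (H927.geomConnOfRep_of_abel hAbel)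

end Fermat.Agent.S25.Assembly
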